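import Mathlib.LinearAlgebra.Matrix.GeneralLinearGroup.Defs
import Mathlib.LinearAlgebra.Matrix.Trace
import Mathlib.FieldTheory.IsAlgClosed.AlgebraicClosure
import Mathlib.Algebra.CharP.Algebra
import Fermat.Agent.ClassField.S56.TW.Reduce
import Mathlib.GroupTheory.Index
import Mathlib.LinearAlgebra.Eigenspace.Triangularizable

/-!
# Taylor-Wiles elements

Group theoretic input to the choice of Taylor-Wiles primes (S56).
-/

set_option autoImplicit false

open Matrix

namespace Fermat.Agent.ClassField.TWElement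

/-- For an absolutely irreducible two dimensional representation `ρ` with finite image and a
non-trivial class `ψ` of `ad⁰(ρ)` twisted by `det ρ`, there is an element with distinct
eigenvalues on which `ψ` has non-zero component along the invariant line. -/
theorem exists_element_trace_ne_zero {k : Type*} [Field k] {p : ℕ} [Fact p.Prime] [CharP k p]
    (hp : p ≠ 2) {G : Type*} [Group G] (ρ : G →* GL (Fin 2) k) (hfin : (Set.range ρ).Finite)
    (Γn : Subgroup G) [Γn.Normal] (hdet1 : ∀ h ∈ Γn, (ρ h).1.det = 1)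
    (hdetSurj : ∀ u : (ZMod p)ˣ, ∃ g, (ρ g).1.det = ZMod.castHom (dvd_refl p) k (u : ZMod p))
    (hirr : ∀ v : Fin 2 → AlgebraicClosure k, v ≠ 0 → ∃ h ∈ Γn, ∀ c : AlgebraicClosure k,
      ((ρ h).1.map (algebraMap k (AlgebraicClosure k))).mulVec v ≠ c • v)
    (ψ : G → Matrix (Fin 2) (Fin 2) k) (hψ0 : ∀ g, (ψ g).trace = 0)
    (hψ : ∀ g h, ψ (g * h) = ψ g + (ρ g).1.det • ((ρ g).1 * ψ h * (ρ g⁻¹).1))
    (hne : ¬ ∃ X : Matrix (Fin 2) (Fin 2) k, X.trace = 0 ∧
      ∀ g, ψ g = (ρ g).1.det • ((ρ g).1 * X * (ρ g⁻¹).1) - X) :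
    ∃ σ ∈ Γn, (ρ σ).1.trace ^ 2 ≠ 4 ∧ (ψ σ * (ρ σ).1).trace ≠ 0 := by
  classical
  let K := AlgebraicClosure k
  let i : k →+* K := algebraMap k K
  haveI : CharP K p := charP_of_injective_algebraMap i.injective p
  let ρK : G →* GL (Fin 2) K := (Matrix.GeneralLinearGroup.map i).comp ρ
  have hval : ∀ g, (ρK g).1 = (ρ g).1.map i := fun g => rfl
  have hdetK : ∀ g, (ρK g).1.det = i (ρ g).1.det := fun g => (RingHom.map_det i _).symm
  have htrK : ∀ M : M2 k, (M.map i).trace = i M.trace := fun M => by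
    simp [Matrix.trace_fin_two]
  have hconj : ∀ g (M : M2 k), conjMat (ρK g) (M.map i) =
      ((ρ g).1 * M * (ρ g⁻¹).1).map i := fun g M => by
    rw [conjMat_apply, ← map_inv, hval, hval, Matrix.map_mul, Matrix.map_mul]
  by_contra hcon
  push Not at hcon
  apply hne
  obtain ⟨X, hX, hXv⟩ := exists_coboundary (p := p) hp ρK
    ((hfin.image (Matrix.GeneralLinearGroup.map i)).subset (by
      rintro _ ⟨g, rfl⟩; exact ⟨ρ g, ⟨g, rfl⟩, rfl⟩))
    Γn (fun h hh => by rw [hdetK, hdet1 h hh, map_one])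
    (fun u => by
      obtain ⟨g, hg⟩ := hdetSurj u
      refine ⟨g, ?_⟩
      rw [hdetK, hg]
      exact RingHom.congr_fun (Subsingleton.elim (i.comp (ZMod.castHom (dvd_refl p) k))
        (ZMod.castHom (dvd_refl p) K)) _)
    (fun v hv => by
      obtain ⟨h, hh, hv'⟩ := hirr v hv
      exact ⟨ρK h, ⟨h, hh, rfl⟩, hv'⟩)
    (fun g => (ψ g).map i) (fun g => by rw [htrK, hψ0, map_zero])
    (fun g h => by
      rw [hψ g h, hconj, hdetK]
      ext a b
      simp only [Matrix.add_apply, Matrix.smul_apply, Matrix.map_apply, smul_eq_mul, map_add,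
        map_mul])
    (fun σ hσ ht => by
      rw [hval, htrK, ← map_pow] at ht
      have ht' : (ρ σ).1.trace ^ 2 ≠ 4 := fun e => ht (by rw [e, map_ofNat])
      rw [hval, ← Matrix.map_mul, htrK, hcon σ hσ ht', map_zero])
  obtain ⟨π, hπ⟩ := LinearMap.exists_leftInverse_of_injective (Algebra.linearMap k K)
    (LinearMap.ker_eq_bot.mpr i.injective)
  have hπi : ∀ c : k, π (i c) = c := fun c => LinearMap.congr_fun hπ c
  have hπmul : ∀ (c : k) (x : K), π (i c * x) = c * π x := fun c x => by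
    rw [← Algebra.smul_def, map_smul, smul_eq_mul]
  have hπmul' : ∀ (c : k) (x : K), π (x * i c) = π x * c := fun c x => by
    rw [mul_comm, hπmul, mul_comm]
  refine ⟨X.map π, ?_, fun g => ?_⟩
  · rw [Matrix.trace_fin_two] at hX ⊢
    simp [Matrix.map_apply, ← map_add, hX]
  · have h := hXv g
    ext a b
    have hab := congrArg π (congr_fun (congr_fun h a) b)
    rw [Matrix.map_apply, hπi] at hab
    rw [hab, hdetK, conjMat_apply, ← map_inv, hval, hval]
    simp only [Matrix.sub_apply, Matrix.smul_apply, smul_eq_mul, map_sub, hπmul, Matrix.mul_apply,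
      Fin.sum_univ_two, Matrix.map_apply, map_add, hπmul']


/-- An irreducible representation without reducible index two subgroup stays irreducible on a
normal subgroup with commutative quotient. -/
theorem irreducible_restrict {K : Type*} [Field K] {G : Type*} [Group G]
    (ρ : G →* GL (Fin 2) K)
    (hirr : ∀ v : Fin 2 → K, v ≠ 0 → ∃ g : G, ∀ c : K, (ρ g).1.mulVec v ≠ c • v)
    (hidx : ∀ G' : Subgroup G, G'.index = 2 →
      ∀ v : Fin 2 → K, v ≠ 0 → ∃ g ∈ G', ∀ c : K, (ρ g).1.mulVec v ≠ c • v)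
    (Γn : Subgroup G) [Γn.Normal] (hcomm : ∀ g g' : G, g * g' * g⁻¹ * g'⁻¹ ∈ Γn)
    [IsAlgClosed K] :
    ∀ v : Fin 2 → K, v ≠ 0 → ∃ h ∈ Γn, ∀ c : K, (ρ h).1.mulVec v ≠ c • v := by
  classical
  intro v hv
  by_contra hcon
  push Not at hcon
  have hcon' : ∀ (x : G) (h : G), h ∈ Γn →
      ∃ c : K, (ρ h).1.mulVec ((ρ x).1.mulVec v) = c • (ρ x).1.mulVec v := by
    intro x h hh
    have hh' : x⁻¹ * h * x ∈ Γn := by
      have := ‹Γn.Normal›.conj_mem h hh x⁻¹
      simpa using this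
    obtain ⟨c, hc⟩ := hcon _ hh'
    refine ⟨c, ?_⟩
    rw [Matrix.mulVec_mulVec, ← Units.val_mul, ← map_mul,
      show h * x = x * (x⁻¹ * h * x) by group, map_mul, Units.val_mul, ← Matrix.mulVec_mulVec, hc,
      Matrix.mulVec_smul]
  by_cases hsc : ∀ h ∈ Γn, ∃ c : K, (ρ h).1 = c • (1 : M2 K)
  · -- projective image abelian
    obtain ⟨g₀, hg₀⟩ := hirr v hv
    set A := (ρ g₀).1 with hA
    have hns : A 0 1 ≠ 0 ∨ A 1 0 ≠ 0 ∨ A 0 0 ≠ A 1 1 := by
      by_contra hn
      push Not at hn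
      apply hg₀ (A 0 0)
      funext i
      fin_cases i <;> simp [Matrix.mulVec, dotProduct, Fin.sum_univ_two, hn.1, hn.2.1, ← hn.2.2]
    have hsgn : ∀ g, (ρ g).1 * A = A * (ρ g).1 ∨ (ρ g).1 * A = -(A * (ρ g).1) := by
      intro g
      obtain ⟨c, hc⟩ := hsc _ (hcomm g g₀)
      have e : (ρ g).1 * A = c • (A * (ρ g).1) := by
        calc (ρ g).1 * A = (ρ (g * g₀)).1 := by rw [map_mul, Units.val_mul]
          _ = (ρ (g * g₀ * g⁻¹ * g₀⁻¹)).1 * (ρ (g₀ * g)).1 := by
            rw [← Units.val_mul, ← map_mul]; congr 2; group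
          _ = _ := by rw [hc, map_mul, Units.val_mul, smul_mul_assoc, one_mul]
      have hd := congrArg Matrix.det e
      rw [Matrix.det_smul, Matrix.det_mul, Matrix.det_mul, Fintype.card_fin] at hd
      have hne : (ρ g).1.det * A.det ≠ 0 :=
        mul_ne_zero ((ρ g).isUnit.map Matrix.detMonoidHom).ne_zero
          ((ρ g₀).isUnit.map Matrix.detMonoidHom).ne_zero
      have hc2 : (c - 1) * (c + 1) = 0 := by
        have : (c ^ 2 - 1) * ((ρ g).1.det * A.det) = 0 := by linear_combination -hd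
        have h' := (mul_eq_zero_iff_right hne).mp this
        linear_combination h'
      rcases mul_eq_zero.mp hc2 with h' | h'
      · left; rw [e, sub_eq_zero.mp h', one_smul]
      · right; rw [e, eq_neg_of_add_eq_zero_left h', neg_one_smul]
    let G' : Subgroup G :=
      (Subgroup.centralizer ({ρ g₀} : Set (GL (Fin 2) K))).comap ρ
    have hmem : ∀ g, g ∈ G' ↔ (ρ g).1 * A = A * (ρ g).1 := fun g => by
      rw [Subgroup.mem_comap, Subgroup.mem_centralizer_singleton_iff]
      exact ⟨fun h => congrArg Units.val h |>.trans (by rfl), fun h => Units.ext h⟩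
    obtain ⟨μ, hμ⟩ := Module.End.exists_eigenvalue (Matrix.toLin' A)
    obtain ⟨w, hw⟩ := hμ.exists_hasEigenvector
    have hAw : A.mulVec w = μ • w := by
      have := hw.apply_eq_smul
      simpa [Matrix.toLin'_apply] using this
    have hfix : ∀ g ∈ G', ∃ c : K, (ρ g).1.mulVec w = c • w := by
      intro g hg
      obtain ⟨α, β, he⟩ := exists_eq_smul_add_of_commute hns ((hmem g).mp hg).symm
      refine ⟨α + β * μ, ?_⟩
      rw [he, Matrix.add_mulVec, Matrix.smul_mulVec, Matrix.smul_mulVec, Matrix.one_mulVec, hAw,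
        smul_smul, ← add_smul]
    by_cases hidx2 : G'.index = 2
    · obtain ⟨g, hg, hgw⟩ := hidx G' hidx2 w hw.2
      obtain ⟨c, hc⟩ := hfix g hg
      exact hgw c hc
    · apply hidx2
      obtain ⟨a, haw⟩ := hirr w hw.2
      have ha : a ∉ G' := fun h => by obtain ⟨c, hc⟩ := hfix a h; exact haw c hc
      refine Subgroup.index_eq_two_iff.mpr ⟨a, fun b => ?_⟩
      by_cases hb : b ∈ G'
      · exact Or.inr ⟨hb, fun h => ha (by simpa using G'.mul_mem (G'.inv_mem hb) h)⟩
      · refine Or.inl ⟨?_, hb⟩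
        rw [hmem, map_mul, Units.val_mul]
        have e1 := (hsgn a).resolve_left (fun h => ha ((hmem a).mpr h))
        have e2 := (hsgn b).resolve_left (fun h => hb ((hmem b).mpr h))
        rw [mul_assoc, e1, mul_neg, ← mul_assoc, e2, neg_mul, neg_neg, mul_assoc]
  · push Not at hsc
    obtain ⟨h₀, hh₀, hh₀'⟩ := hsc
    obtain ⟨x₁, hx₁⟩ := hirr v hv
    set w := (ρ x₁).1.mulVec v with hw
    have hvw : v 0 * w 1 - w 0 * v 1 ≠ 0 := by
      intro e
      by_cases h0 : v 0 = 0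
      · have h1 : v 1 ≠ 0 := fun h1 => hv (funext fun i => by fin_cases i <;> simp [h0, h1])
        have hw0 : w 0 = 0 := by
          rw [h0, zero_mul, zero_sub, neg_eq_zero] at e
          exact (mul_eq_zero_iff_right h1).mp e
        refine hx₁ (w 1 / v 1) (funext fun i => ?_)
        fin_cases i <;> simp [← hw, h0, hw0, div_mul_cancel₀, h1]
      · refine hx₁ (w 0 / v 0) (funext fun i => ?_)
        fin_cases i
        · simp [← hw, div_mul_cancel₀, h0]
        · simp [← hw]; field_simp; linear_combination e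
    obtain ⟨g, hgv, hgw⟩ := exists_gl_of_cols hvw
    let ρ' : G →* GL (Fin 2) K := (MulAut.conj g⁻¹).toMonoidHom.comp ρ
    have hρ' : ∀ x, ρ' x = g⁻¹ * ρ x * g := fun x => by simp [ρ']
    have hdiag : ∀ h ∈ Γn, (ρ' h).1 1 0 = 0 ∧ (ρ' h).1 0 1 = 0 := by
      intro h hh
      obtain ⟨c, hc⟩ := hcon h hh
      obtain ⟨d, hd⟩ := hcon' x₁ h hh
      rw [← hw] at hd
      rw [hρ']
      refine ⟨(conj_e10_eq_zero hgv hc).1, ?_⟩
      have h2v : (g⁻¹ * ρ h * g).1.mulVec ![0, 1] = d • ![0, 1] := by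
        rw [Units.val_mul, Units.val_mul g⁻¹, ← Matrix.mulVec_mulVec, hgw,
          ← Matrix.mulVec_mulVec, hd, Matrix.mulVec_smul, ← hgw, Matrix.mulVec_mulVec,
          ← Units.val_mul, inv_mul_cancel, Units.val_one, Matrix.one_mulVec]
      simpa [Matrix.mulVec, dotProduct, Fin.sum_univ_two] using congrFun h2v 0
    have hne₀ : (ρ' h₀).1 0 0 ≠ (ρ' h₀).1 1 1 := by
      intro e
      apply hh₀' ((ρ' h₀).1 0 0)
      have hs : (ρ' h₀).1 = (ρ' h₀).1 0 0 • (1 : M2 K) := by
        ext i j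
        fin_cases i <;> fin_cases j <;> simp [(hdiag h₀ hh₀).1, (hdiag h₀ hh₀).2, ← e]
      have : (ρ h₀).1 = (g * ρ' h₀ * g⁻¹).1 := by rw [hρ']; congr 1; group
      rw [this, Units.val_mul, Units.val_mul]
      conv_lhs => rw [hs]
      rw [mul_smul_comm, mul_one, smul_mul_assoc, ← Units.val_mul, mul_inv_cancel, Units.val_one]
    -- every element is diagonal or antidiagonal
    have hmono : ∀ x : G, ((ρ' x).1 1 0 = 0 ∧ (ρ' x).1 0 1 = 0) ∨
        ((ρ' x).1 0 0 = 0 ∧ (ρ' x).1 1 1 = 0) := by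
      intro x
      set A := (ρ' x).1 with hA
      have hh' := ‹Γn.Normal›.conj_mem h₀ hh₀ x
      obtain ⟨d10, d01⟩ := hdiag h₀ hh₀
      obtain ⟨e10', e01'⟩ := hdiag _ hh'
      have e : A * (ρ' h₀).1 = (ρ' (x * h₀ * x⁻¹)).1 * A := by
        rw [hA, ← Units.val_mul, ← Units.val_mul, ← map_mul, ← map_mul]
        congr 2; group
      have hdetA : A 0 0 * A 1 1 - A 0 1 * A 1 0 ≠ 0 := by
        rw [← Matrix.det_fin_two]; exact ((ρ' x).isUnit.map Matrix.detMonoidHom).ne_zero
      generalize (ρ' (x * h₀ * x⁻¹)).1 = D' at e e10' e01'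
      have e00 := congr_fun (congr_fun e 0) 0
      have e01 := congr_fun (congr_fun e 0) 1
      have e10 := congr_fun (congr_fun e 1) 0
      have e11 := congr_fun (congr_fun e 1) 1
      simp [Matrix.mul_apply, Fin.sum_univ_two, d10, d01, e10', e01'] at e00 e01 e10 e11
      have hd := sub_ne_zero.mpr hne₀
      by_cases h00 : A 0 0 = 0
      · right
        refine ⟨h00, ?_⟩
        have h10 : A 1 0 ≠ 0 := fun h => hdetA (by rw [h00, h]; ring)
        refine (mul_eq_zero_iff_right (mul_ne_zero h10 hd)).mp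
          (show A 1 1 * (A 1 0 * ((ρ' h₀).1 0 0 - (ρ' h₀).1 1 1)) = 0 by
            linear_combination A 1 1 * e10 - A 1 0 * e11)
      · left
        have h01 : A 0 1 = 0 :=
          (mul_eq_zero_iff_right (mul_ne_zero h00 hd)).mp
            (show A 0 1 * (A 0 0 * ((ρ' h₀).1 0 0 - (ρ' h₀).1 1 1)) = 0 by
              linear_combination A 0 1 * e00 - A 0 0 * e01)
        have h11 : A 1 1 ≠ 0 := fun h => hdetA (by rw [h, h01]; ring)
        exact ⟨(mul_eq_zero_iff_right (mul_ne_zero h11 hd)).mp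
          (show A 1 0 * (A 1 1 * ((ρ' h₀).1 0 0 - (ρ' h₀).1 1 1)) = 0 by
            linear_combination A 1 1 * e10 - A 1 0 * e11), h01⟩
    let G' : Subgroup G := (borel K).comap ρ'
    have hmem : ∀ x, x ∈ G' ↔ (ρ' x).1 1 0 = 0 := fun x => Iff.rfl
    have hfix : ∀ x ∈ G', ∃ c : K, (ρ x).1.mulVec v = c • v := by
      intro x hx
      rw [hmem, hρ'] at hx
      refine ⟨(g⁻¹ * ρ x * g).1 0 0, ?_⟩
      have h1 : (g⁻¹ * ρ x * g).1.mulVec ![1, 0] = (g⁻¹ * ρ x * g).1 0 0 • ![1, 0] := funext fun i => by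
        generalize (g⁻¹ * ρ x * g).1 = M at hx ⊢
        fin_cases i <;> simp [Matrix.mulVec, dotProduct, Fin.sum_univ_two, hx]
      have h2 := congrArg g.1.mulVec h1
      rwa [Matrix.mulVec_mulVec, ← Units.val_mul, ← mul_assoc, ← mul_assoc, mul_inv_cancel, one_mul,
        Units.val_mul, ← Matrix.mulVec_mulVec, Matrix.mulVec_smul, hgv] at h2
    by_cases hidx2 : G'.index = 2
    · obtain ⟨y, hy, hyv⟩ := hidx G' hidx2 v hv
      obtain ⟨c, hc⟩ := hfix y hy
      exact hyv c hc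
    · apply hidx2
      have ha : x₁ ∉ G' := fun h => by obtain ⟨c, hc⟩ := hfix x₁ h; exact hx₁ c hc
      refine Subgroup.index_eq_two_iff.mpr ⟨x₁, fun b => ?_⟩
      by_cases hb : b ∈ G'
      · exact Or.inr ⟨hb, fun h => ha (by simpa using G'.mul_mem (G'.inv_mem hb) h)⟩
      · refine Or.inl ⟨?_, hb⟩
        rw [hmem] at ha hb ⊢
        have a00 := ((hmono x₁).resolve_left (fun h => ha h.1)).1
        have b11 := ((hmono b).resolve_left (fun h => hb h.1)).2
        rw [map_mul, Units.val_mul]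
        simp [Matrix.mul_apply, Fin.sum_univ_two, a00, b11]

end Fermat.Agent.ClassField.TWElement
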