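import Fermat.Agent.ClassField.S56.UnipotentClasses
import Fermat.Agent.RT.Global.Presentation
import Fermat.Agent.RT.LocalAtP.Flat
import Fermat.Agent.Galois.Frobenius
import Fermat.Prelude.Def_GaloisRep_Flat
import Fermat.Prelude.Def_GaloisRep_StrictOrdinary

/-!
# Taylor–Wiles primes and generators of the deformation ring (S56)

From the Greenberg–Wiles inequality for the adjoint and the bound at `p`: a uniform number of
Taylor–Wiles primes, and a presentation of the deformation ring by as many variables.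
-/

set_option autoImplicit false

noncomputable section

namespace Fermat.Agent.ClassField.S56

open IsLocalRing Fermat.Agent.Deformation Fermat.Agent.RT GaloisRep
open Deformation (Mat)

local notation "ℚ̄" => AlgebraicClosure ℚ

section LinearAlgebra

variable {k : Type} [Field k] (rbar : Γ →* Mat k) {s : ℕ} (H : Fin s → Subgroup Γ)
  (U : Submodule k (Γ → Mat k))

/-- The classes in `U` which are coboundaries on every `H i`. -/
def trivialPart : Submodule k (Γ → Mat k) :=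
  U ⊓ ⨅ i, (LinearMap.range ((resSub (H i)).comp (adCoboundary rbar))).comap (resSub (H i))

theorem mem_trivialPart {Z : Γ → Mat k} :
    Z ∈ trivialPart rbar H U ↔
      Z ∈ U ∧ ∀ i, ∃ X, ∀ d ∈ H i, Z d = adCoboundary rbar X d := by
  simp only [trivialPart, Submodule.mem_inf, Submodule.mem_iInf, Submodule.mem_comap,
    LinearMap.mem_range, LinearMap.comp_apply]
  refine and_congr_right fun _ => forall_congr' fun i => exists_congr fun X => ?_
  exact ⟨fun h d hd => (congrFun h ⟨d, hd⟩).symm, fun h => funext fun d => (h d.1 d.2).symm⟩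

variable [FiniteDimensional k ((trivialPart rbar H U).map (LinearMap.range (adCoboundary rbar)).mkQ)]
  [∀ i, FiniteDimensional k (localClasses rbar (H i) U)]

/-- Classes are bounded by the locally trivial ones plus the local classes. -/
theorem finrank_classes_le :
    FiniteDimensional k (U.map (LinearMap.range (adCoboundary rbar)).mkQ) ∧
      Module.finrank k (U.map (LinearMap.range (adCoboundary rbar)).mkQ) ≤
        Module.finrank k ((trivialPart rbar H U).map (LinearMap.range (adCoboundary rbar)).mkQ) +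
          ∑ i, Module.finrank k (localClasses rbar (H i) U) := by
  classical
  set R := LinearMap.range (adCoboundary rbar)
  let Ri := fun i => LinearMap.range ((resSub (H i)).comp (adCoboundary rbar))
  let T := U.map R.mkQ
  let loc : ((Γ → Mat k) ⧸ R) →ₗ[k] ∀ i, ((H i → Mat k) ⧸ Ri i) :=
    LinearMap.pi fun i => R.mapQ (Ri i) (resSub (H i)) (by rintro _ ⟨X, rfl⟩; exact ⟨X, rfl⟩)
  let emb : (∀ i, localClasses rbar (H i) U) →ₗ[k] ∀ i, ((H i → Mat k) ⧸ Ri i) :=
    LinearMap.pi fun i => (localClasses rbar (H i) U).subtype.comp (LinearMap.proj i)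
  have himg : T.map loc ≤ LinearMap.range emb := by
    rintro _ ⟨_, ⟨Z, hZ, rfl⟩, rfl⟩
    exact ⟨fun i => ⟨_, ⟨resSub (H i) Z, ⟨Z, hZ, rfl⟩, rfl⟩⟩, rfl⟩
  have hker : T ⊓ LinearMap.ker loc ≤ (trivialPart rbar H U).map R.mkQ := by
    rintro _ ⟨⟨Z, hZ, rfl⟩, hc⟩
    refine ⟨Z, ⟨hZ, ?_⟩, rfl⟩
    rw [SetLike.mem_coe, Submodule.mem_iInf]
    intro i
    exact (Submodule.Quotient.mk_eq_zero (Ri i)).mp (congrFun (LinearMap.mem_ker.mp hc) i)
  haveI himgfin : FiniteDimensional k (T.map loc) := Submodule.finiteDimensional_of_le himg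
  haveI hkerfin : FiniteDimensional k (T ⊓ LinearMap.ker loc : Submodule k _) :=
    Submodule.finiteDimensional_of_le hker
  haveI hT : FiniteDimensional k T :=
    Module.Finite.iff_fg.mpr (Submodule.fg_of_fg_map_of_fg_inf_ker loc
      (Module.Finite.iff_fg.mp himgfin) (Module.Finite.iff_fg.mp hkerfin))
  refine ⟨hT, ?_⟩
  let g := loc.domRestrict T
  have hgr : LinearMap.range g = T.map loc := by
    rw [LinearMap.range_domRestrict]
  have hgk : (LinearMap.ker g).map T.subtype = T ⊓ LinearMap.ker loc := by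
    rw [LinearMap.ker_domRestrict, Submodule.map_comap_subtype]
  have h1 := LinearMap.finrank_range_add_finrank_ker g
  have h2 : Module.finrank k (LinearMap.range g) ≤
      ∑ i, Module.finrank k (localClasses rbar (H i) U) := by
    rw [hgr]
    haveI : ∀ i, Module.Free k (localClasses rbar (H i) U) := fun i => Module.Free.of_divisionRing k _
    exact ((Submodule.finrank_mono himg).trans (LinearMap.finrank_range_le emb)).trans
      (Module.finrank_pi_fintype k).le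
  have h3 : Module.finrank k (LinearMap.ker g) ≤
      Module.finrank k ((trivialPart rbar H U).map R.mkQ) := by
    rw [(Submodule.equivMapOfInjective _ T.injective_subtype (LinearMap.ker g)).finrank_eq, hgk]
    exact Submodule.finrank_mono hker
  show Module.finrank k T ≤ _
  omega

end LinearAlgebra

variable {𝒪 : Type} [CommRing 𝒪] [IsDomain 𝒪] [IsDiscreteValuationRing 𝒪]
  [IsAdicComplete (maximalIdeal 𝒪) 𝒪] [Finite (ResidueField 𝒪)]

/-- Taylor–Wiles primes with the deformation ring generated by as many variables. -/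
theorem exists_taylorWiles_generators (p : ℕ) [Fact p.Prime] (hp2 : p ≠ 2)
    (hp𝒪 : (p : 𝒪) ∈ maximalIdeal 𝒪) (ρbar : ResidualGaloisRep (ResidueField 𝒪))
    (habs : ρbar.IsAbsolutelyIrreducible)
    (hdet : (GaloisRepAdic.ofResidualGaloisRep ρbar).DetIsCyclotomic p)
    (hsplit : ∀ σ : Γ, ∃ α β : ResidueField 𝒪, LinearMap.charpoly (ρbar.ρ σ) =
      (Polynomial.X - Polynomial.C α) * (Polynomial.X - Polynomial.C β))
    (hTW : ∀ (K : Type) [Field K] [Algebra (ResidueField 𝒪) K] (G : Subgroup Γ), G.index = 2 →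
      ∀ V : Submodule K (ρbar.baseChange K).V,
        (∀ σ ∈ G, ∀ x ∈ V, (ρbar.baseChange K).ρ σ x ∈ V) → V = ⊥ ∨ V = ⊤)
    (bbar : Module.Basis (Fin 2) (ResidueField 𝒪) ρbar.V)
    (𝒟 : Finset ℕ → ∀ ⦃A : Type⦄ [CommRing A] [IsLocalRing A] [Algebra 𝒪 A],
      GaloisRepAdic A → Prop)
    (h𝒟 : ∀ Q, IsDeformationCondition 𝒪 (𝒟 Q))
    (h𝒟det : ∀ Q, ∀ ⦃A : Type⦄ [CommRing A] [IsLocalRing A] [Algebra 𝒪 A] ⦃ρ : GaloisRepAdic A⦄,
      𝒟 Q ρ → ρ.DetIsCyclotomic p)
    (S Smin : Finset ℕ) (hSmin : ∀ q ∈ Smin, q.Prime)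
    (hram : ∀ q ∈ Smin, q ≠ p → ¬ ρbar.IsUnramifiedAt q)
    (h𝒟ur : ∀ Q : Finset ℕ, ∀ ρ : GaloisRepAdic (DualNumber (ResidueField 𝒪)), 𝒟 Q ρ →
      ∀ ℓ : ℕ, ℓ.Prime → ℓ ∉ Smin ∪ Q → ρ.IsUnramifiedAt ℓ)
    (h𝒟unip : ∀ Q : Finset ℕ, ∀ ρ : GaloisRepAdic (DualNumber (ResidueField 𝒪)), 𝒟 Q ρ →
      ∀ q ∈ Smin, q ≠ p → ρ.IsUnipotentOnInertiaAt q)
    (P₀ : ValuationSubring ℚ̄)
    (hGW : AdjointGW p (matOf ρbar.ρ bbar) Smin P₀)
    (hloc : LocalBoundAtP (matOf ρbar.ρ bbar) 𝒟 P₀) :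
    ∃ r : ℕ, ∀ n : ℕ, ∃ qv : Fin r → ℕ, Function.Injective qv ∧
      (∀ i, (qv i).Prime ∧ qv i ∉ S ∧ p ^ (n + 1) ∣ qv i - 1) ∧
      (∀ i, ∀ P : ValuationSubring ℚ̄, P.LiesOverPrime (qv i) →
        ∀ φ : Γ, P.IsFrobeniusAt φ (qv i) →
          ∃ α β : ResidueField 𝒪, α ≠ β ∧ LinearMap.charpoly (ρbar.ρ φ) =
            (Polynomial.X - Polynomial.C α) * (Polynomial.X - Polynomial.C β)) ∧
      ∀ DQ : DeformationRingData 𝒪 ρbar (𝒟 (Finset.univ.image qv)),
        ∃ γ : MvPowerSeries (Fin r) 𝒪 →ₐ[𝒪] DQ.R, Function.Surjective γ := by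
  classical
  set rb := matOf ρbar.ρ bbar with hrb
  have hchar : CharP (ResidueField 𝒪) p := (CharP.charP_iff_prime_eq_zero Fact.out).mpr (by
    rw [← map_natCast (residue 𝒪), residue_eq_zero_iff]; exact hp𝒪)
  have h2 : (2 : ResidueField 𝒪) ≠ 0 := by
    intro h
    have : ((2 : ℕ) : ResidueField 𝒪) = 0 := by exact_mod_cast h
    rw [CharP.cast_eq_zero_iff (ResidueField 𝒪) p] at this
    exact hp2 ((Nat.prime_dvd_prime_iff_eq Fact.out Nat.prime_two).1 this)
  have hfin : GaloisFactorsThroughFiniteLevel rb := by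
    obtain ⟨L, hL, h⟩ := ρbar.factorsThroughFiniteLevel
    exact ⟨L, hL, fun σ hσ => by rw [hrb, matOf_apply, h σ hσ, LinearMap.toMatrix_one]⟩
  obtain ⟨V, U, hV, hV1, hV2, hgw⟩ := hGW
  -- places over the primes of `Smin` other than `p`
  let e := (Smin.erase p).equivFin.symm
  let ℓ : Fin (Smin.erase p).card → ℕ := fun i => (e i).1
  have hℓmem : ∀ i, ℓ i ∈ Smin ∧ ℓ i ≠ p := fun i =>
    ⟨Finset.mem_of_mem_erase (e i).2, Finset.ne_of_mem_erase (e i).2⟩
  have hram' : ∀ i, ∃ T : TamePair p (ℓ i), ∃ τ ∈ T.A.inertiaSubgroupIn ℚ, rb τ ≠ 1 := by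
    intro i
    have h := hram _ (hℓmem i).1 (hℓmem i).2
    simp only [ResidualGaloisRep.IsUnramifiedAt] at h
    push Not at h
    obtain ⟨A, hA, τ, hτ, hne⟩ := h
    obtain ⟨T, hT⟩ := exists_tamePair (Fact.out : p.Prime) (hSmin _ (hℓmem i).1)
      (hℓmem i).2.symm A hA
    refine ⟨T, τ, hT ▸ hτ, fun h1 => hne ?_⟩
    exact (matOf_eq_one_iff ρbar.ρ bbar τ).1 h1
  choose T hT using hram'
  refine ⟨Module.finrank (ResidueField 𝒪) V, fun n => ?_⟩
  obtain ⟨qv, hinj, hqv, hker⟩ := exists_taylorWilesSet ρbar bbar p hp2 habs hdet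
    (fun K _ _ G hG => hTW K G hG) V hV1 hV2 (S ∪ Smin ∪ U) n
  refine ⟨qv, hinj, fun i => ?_, fun i P hP φ hφ => ?_, fun D => ?_⟩
  · obtain ⟨hnot, hprime, -, hdvd, -⟩ := hqv i
    exact ⟨hprime, fun h => hnot (Finset.mem_union_left _ (Finset.mem_union_left _ h)), hdvd⟩
  · obtain ⟨-, -, -, -, hl⟩ := hqv i
    obtain ⟨hd, ht⟩ := (hl P hP).2 φ hφ
    obtain ⟨α, β, h⟩ := hsplit φ
    refine ⟨α, β, fun hab => ?_, h⟩
    have hc := LinearMap.charpoly_toMatrix (ρbar.ρ φ) bbar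
    rw [Matrix.charpoly_fin_two, h, hab] at hc
    have c0 := congrArg (Polynomial.coeff · 0) hc
    have c1 := congrArg (Polynomial.coeff · 1) hc
    simp [← sq, sub_sq, Polynomial.coeff_X_pow, Polynomial.coeff_X, Polynomial.coeff_C,
      mul_assoc, Polynomial.coeff_X_mul, Polynomial.coeff_ofNat_mul, ← Polynomial.C_mul] at c0 c1
    apply ht
    have hd' : (LinearMap.toMatrix bbar bbar (ρbar.ρ φ)).det = 1 := hd
    show (LinearMap.toMatrix bbar bbar (ρbar.ρ φ)).trace ^ 2 = 4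
    have hd'' : LinearMap.det (ρbar.ρ φ) = 1 := by rw [← LinearMap.det_toMatrix bbar]; exact hd'
    rw [hd''] at c0
    simp only [sq, ← Polynomial.C_mul, Polynomial.coeff_C_zero] at c0
    have hcc : (Polynomial.C β ^ 2).coeff 1 = 0 := by
      rw [← map_pow, Polynomial.coeff_C_of_ne_zero one_ne_zero]
    rw [hcc, add_zero] at c1
    linear_combination ((LinearMap.toMatrix bbar bbar (ρbar.ρ φ)).trace + 2 * β) * (-c1) - 4 * c0
  let Q := Finset.univ.image qv
  have hQdef : Q = Finset.univ.image qv := rfl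
  set Uspan := Submodule.span (ResidueField 𝒪) (tangentSet (𝒟 Q) rb) with hU
  let H : Fin (Smin.erase p).card → Subgroup Γ := fun i => (T i).A.decompositionSubgroup ℚ
  have hlocal : ∀ i, FiniteDimensional (ResidueField 𝒪) (localClasses rb (H i) Uspan) ∧
      Module.finrank (ResidueField 𝒪) (localClasses rb (H i) Uspan) ≤
        Module.finrank (ResidueField 𝒪) (commutantSpace rb (H i)) - 1 := fun i =>
    finrank_localClasses_unipotent_le h2 (hSmin _ (hℓmem i).1) (hℓmem i).2.symm hp𝒪 hfin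
      (fun ρ hρ => h𝒟unip Q ρ hρ _ (hℓmem i).1 (hℓmem i).2) (T i) (hT i)
  have hW : ∀ Z ∈ trivialPart rb H Uspan, IsAdjointClass rb (Smin ∪ Q) Z := by
    intro Z hZ
    have hZU : Z ∈ Uspan := ((mem_trivialPart rb H Uspan).mp hZ).1
    obtain ⟨h1, h3, h4⟩ := (Submodule.span_le.mpr tangentSet_subset_cocycleSpace) hZU
    refine ⟨h1, h3, h4, fun l hl hlT P' hP' τ hτ => ?_⟩
    induction hZU using Submodule.span_induction with
    | mem x hx =>
      exact (eq_one_and_eq_zero_of_mem_inertia hx (fun ρ hρ => h𝒟ur Q ρ hρ l hl hlT) hP' hτ).2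
    | zero => rfl
    | add a b ha hb iha ihb =>
      have key : ∀ x ∈ Uspan, x τ = 0 := fun x hx => by
        have hle : Uspan ≤ LinearMap.ker (LinearMap.proj (φ := fun _ : Γ => Mat (ResidueField 𝒪)) τ) :=
          Submodule.span_le.mpr fun z hz => (eq_one_and_eq_zero_of_mem_inertia hz
            (fun ρ hρ => h𝒟ur Q ρ hρ l hl hlT) hP' hτ).2
        exact hle hx
      exact key _ (add_mem ha hb)
    | smul c a ha iha =>
      have hle : Uspan ≤ LinearMap.ker (LinearMap.proj (φ := fun _ : Γ => Mat (ResidueField 𝒪)) τ) :=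
        Submodule.span_le.mpr fun z hz => (eq_one_and_eq_zero_of_mem_inertia hz
          (fun ρ hρ => h𝒟ur Q ρ hρ l hl hlT) hP' hτ).2
      exact hle (Submodule.smul_mem _ c ha)
  obtain ⟨hfdW, hdimW⟩ := hgw Q (fun q hq => by
      obtain ⟨i, -, rfl⟩ := Finset.mem_image.mp hq
      obtain ⟨hnot, hprime, hne, hdvd, hl⟩ := hqv i
      refine ⟨fun h => hnot ?_, hprime, hne, (pow_dvd_pow p (Nat.le_add_left 1 n)).trans hdvd, hl⟩
      rcases Finset.mem_union.mp h with h | h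
      · exact Finset.mem_union_left _ (Finset.mem_union_right _ h)
      · exact Finset.mem_union_right _ h)
    (trivialPart rb H Uspan) hW _ ℓ (fun i => (T i).A)
    (fun i j h => e.injective (Subtype.ext h))
    (fun i => ⟨(hℓmem i).1, (hℓmem i).2, (T i).hA⟩)
    (fun l hl => (eq_or_ne l p).imp_right fun hne =>
      ⟨e.symm ⟨l, Finset.mem_erase.mpr ⟨hne, hl⟩⟩, congrArg Subtype.val (e.apply_symm_apply _)⟩)
    (fun Z hZ i => ((mem_trivialPart rb H Uspan).mp hZ).2 i)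
  haveI := hfdW
  haveI : ∀ i, FiniteDimensional (ResidueField 𝒪) (localClasses rb (H i) Uspan) := fun i => (hlocal i).1
  obtain ⟨hfdU, hdimU⟩ := finrank_classes_le rb H Uspan
  obtain ⟨hfdp, hdimp⟩ := hloc Q
  haveI := hfdp
  have hpmono : Module.finrank (ResidueField 𝒪)
      (localClasses rb (P₀.decompositionSubgroup ℚ) (trivialPart rb H Uspan)) ≤
      Module.finrank (ResidueField 𝒪) (localClasses rb (P₀.decompositionSubgroup ℚ) Uspan) :=
    Submodule.finrank_mono (Submodule.map_mono (Submodule.map_mono inf_le_left))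
  have hV' := hdimW ⊥ fun ψ => by
    rw [Submodule.mem_bot]
    exact ⟨fun h => h ▸ ⟨zero_mem V, fun q _ P _ φ _ => by simp⟩, fun h => hker ψ h.1
      fun i P hP φ hφ => h.2 _ (Finset.mem_image_of_mem qv (Finset.mem_univ i)) P hP φ hφ⟩
  rw [finrank_bot, add_zero, hQdef, Finset.card_image_of_injective _ hinj, Finset.card_univ,
    Fintype.card_fin] at hV'
  have hsum := Finset.sum_le_sum fun i (_ : i ∈ Finset.univ) => (hlocal i).2
  have key : Module.finrank (ResidueField 𝒪)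
      (Uspan.map (LinearMap.range (adCoboundary rb)).mkQ) ≤ Module.finrank (ResidueField 𝒪) V := by
    have a1 : Module.finrank (ResidueField 𝒪) (localClasses rb (P₀.decompositionSubgroup ℚ) Uspan) ≤
        Module.finrank (ResidueField 𝒪)
          ↥(commutantSpace rb (P₀.decompositionSubgroup ℚ) ⊓ traceZero (ResidueField 𝒪)) + 1 := hdimp
    have a2 : Module.finrank (ResidueField 𝒪)
        ((trivialPart rb H Uspan).map (LinearMap.range (adCoboundary rb)).mkQ) + 1 +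
          Module.finrank (ResidueField 𝒪)
            ↥(commutantSpace rb (P₀.decompositionSubgroup ℚ) ⊓ traceZero (ResidueField 𝒪)) +
          ∑ i, (Module.finrank (ResidueField 𝒪) (commutantSpace rb (H i)) - 1) ≤
        Module.finrank (ResidueField 𝒪)
            (localClasses rb (P₀.decompositionSubgroup ℚ) (trivialPart rb H Uspan)) +
          Module.finrank (ResidueField 𝒪) V := hV'
    omega
  -- the presentation
  obtain ⟨b, hb⟩ := exists_basis_residueMat_eq D bbar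
  let H₀ : Fin 0 → Subgroup Γ := fun i => i.elim0
  have hsel : selSpace (𝒟 Q) rb H₀ = Uspan := by simp [selSpace, hU]
  haveI : FiniteDimensional (ResidueField 𝒪)
      ((selSpace (𝒟 Q) rb H₀).map (LinearMap.range (adCoboundary rb)).mkQ) := by
    rw [hsel]; exact hfdU
  obtain ⟨Φ, hΦ, -⟩ := exists_framedGenerators p hp𝒪 (h𝒟 Q) D (h𝒟det _ D.isOfType) bbar
    (span_residualMatrix_eq_top habs bbar) b hb H₀ (fun i => i.elim0) (fun _ _ i => i.elim0)
    (g := Module.finrank (ResidueField 𝒪) V) (by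
      simp only [Finset.univ_eq_empty, Finset.sum_empty, add_zero, Nat.zero_sub]
      rw [hsel]
      exact key)
    (fun i => i.elim0) (fun i => i.elim0) D.R D.residue_surjective (fun i => i.elim0)
    (fun i => i.elim0) (fun i => i.elim0)
    (le_sup_of_le_right (by rw [Algebra.algebraMap_self, Ideal.map_id]))
    (fun i => i.elim0) (fun i => i.elim0)
  exact ⟨Φ.comp (MvPowerSeries.renameEquiv (R := 𝒪) (Equiv.emptySum
      (Fin 0 × Fin 2 × Fin 2 × Fin 2) (Fin (Module.finrank (ResidueField 𝒪) V)))).symm.toAlgHom,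
    hΦ.comp (AlgEquiv.surjective _)⟩

/-- S56 from the Greenberg–Wiles inequality and the two bounds at `p`. -/
theorem exists_taylorWilesPrimes_of (p : ℕ) [Fact p.Prime] (hp2 : p ≠ 2)
    (hp𝒪 : (p : 𝒪) ∈ maximalIdeal 𝒪) (ρbar : ResidualGaloisRep (ResidueField 𝒪))
    (habs : ρbar.IsAbsolutelyIrreducible)
    (hdet : (GaloisRepAdic.ofResidualGaloisRep ρbar).DetIsCyclotomic p)
    (hsplit : ∀ σ : Γ, ∃ α β : ResidueField 𝒪, LinearMap.charpoly (ρbar.ρ σ) =
      (Polynomial.X - Polynomial.C α) * (Polynomial.X - Polynomial.C β))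
    (hTW : ∀ (K : Type) [Field K] [Algebra (ResidueField 𝒪) K] (G : Subgroup Γ), G.index = 2 →
      ∀ V : Submodule K (ρbar.baseChange K).V,
        (∀ σ ∈ G, ∀ x ∈ V, (ρbar.baseChange K).ρ σ x ∈ V) → V = ⊥ ∨ V = ⊤)
    (S Smin : Finset ℕ) (hSmin : Smin ⊆ S) (hS : ∀ q ∈ S, q.Prime)
    (hmin : ∀ q : ℕ, q.Prime → q ≠ p → (q ∈ Smin ↔ ¬ ρbar.IsUnramifiedAt q))
    (bbar : Module.Basis (Fin 2) (ResidueField 𝒪) ρbar.V) (P₀ : ValuationSubring ℚ̄)
    (hGW : AdjointGW p (matOf ρbar.ρ bbar) Smin P₀)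
    (hord : LocalBoundAtP (𝒪 := 𝒪) (matOf ρbar.ρ bbar) (fun Q _A _ _ _ ρ =>
      GaloisRep.strictOrdinaryCondition 𝒪 p (Smin ∪ Q) ρ ∧
        ∀ q ∈ Smin, q.Prime → q ≠ p → ρ.IsUnipotentOnInertiaAt q) P₀)
    (hflat : LocalBoundAtP (𝒪 := 𝒪) (matOf ρbar.ρ bbar) (fun Q _A _ _ _ ρ =>
      GaloisRep.flatCondition 𝒪 p (Smin ∪ Q) ρ ∧
        ∀ q ∈ Smin, q.Prime → q ≠ p → ρ.IsUnipotentOnInertiaAt q) P₀) :
    (∃ r : ℕ, ∀ n : ℕ, ∃ qv : Fin r → ℕ, Function.Injective qv ∧
      (∀ i, (qv i).Prime ∧ qv i ∉ S ∧ p ^ (n + 1) ∣ qv i - 1) ∧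
      (∀ i, ∀ P : ValuationSubring ℚ̄, P.LiesOverPrime (qv i) →
        ∀ φ : Γ, P.IsFrobeniusAt φ (qv i) →
          ∃ α β : ResidueField 𝒪, α ≠ β ∧ LinearMap.charpoly (ρbar.ρ φ) =
            (Polynomial.X - Polynomial.C α) * (Polynomial.X - Polynomial.C β)) ∧
      ∀ DQ : GaloisRep.DeformationRingData 𝒪 ρbar (fun _A _ _ _ ρ =>
          GaloisRep.strictOrdinaryCondition 𝒪 p (Smin ∪ Finset.univ.image qv) ρ ∧
            ∀ q ∈ Smin, q.Prime → q ≠ p → ρ.IsUnipotentOnInertiaAt q),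
        ∃ γ : MvPowerSeries (Fin r) 𝒪 →ₐ[𝒪] DQ.R, Function.Surjective γ) ∧
    (∃ r : ℕ, ∀ n : ℕ, ∃ qv : Fin r → ℕ, Function.Injective qv ∧
      (∀ i, (qv i).Prime ∧ qv i ∉ S ∧ p ^ (n + 1) ∣ qv i - 1) ∧
      (∀ i, ∀ P : ValuationSubring ℚ̄, P.LiesOverPrime (qv i) →
        ∀ φ : Γ, P.IsFrobeniusAt φ (qv i) →
          ∃ α β : ResidueField 𝒪, α ≠ β ∧ LinearMap.charpoly (ρbar.ρ φ) =
            (Polynomial.X - Polynomial.C α) * (Polynomial.X - Polynomial.C β)) ∧
      ∀ DQ : GaloisRep.DeformationRingData 𝒪 ρbar (fun _A _ _ _ ρ =>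
          GaloisRep.flatCondition 𝒪 p (Smin ∪ Finset.univ.image qv) ρ ∧
            ∀ q ∈ Smin, q.Prime → q ≠ p → ρ.IsUnipotentOnInertiaAt q),
        ∃ γ : MvPowerSeries (Fin r) 𝒪 →ₐ[𝒪] DQ.R, Function.Surjective γ) := by
  have hsm : ∀ q ∈ Smin, q.Prime := fun q hq => hS q (hSmin hq)
  have hr : ∀ q ∈ Smin, q ≠ p → ¬ ρbar.IsUnramifiedAt q := fun q hq hne =>
    (hmin q (hsm q hq) hne).mp hq
  exact ⟨exists_taylorWiles_generators p hp2 hp𝒪 ρbar habs hdet hsplit hTW bbar _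
      (fun Q => isDeformationCondition_strictOrdinary Fact.out hp2 hp𝒪 (Smin ∪ Q) Smin)
      (fun Q _A _ _ _ _ h => h.1.1) S Smin hsm hr (fun Q ρ h ℓ hℓ hn => h.1.2.2 ℓ hℓ hn)
      (fun Q ρ h q hq hne => h.2 q hq (hsm q hq) hne) P₀ hGW hord,
    exists_taylorWiles_generators p hp2 hp𝒪 ρbar habs hdet hsplit hTW bbar _
      (fun Q => FlatCond.isDeformationCondition_flatCondition hp𝒪 (Smin ∪ Q) Smin)
      (fun Q _A _ _ _ _ h => h.1.1) S Smin hsm hr (fun Q ρ h ℓ hℓ hn => h.1.2.2 ℓ hℓ hn)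
      (fun Q ρ h q hq hne => h.2 q hq (hsm q hq) hne) P₀ hGW hflat⟩

end Fermat.Agent.ClassField.S56
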