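import Fermat.Agent.ClassField.S56.Assembly
import Fermat.Agent.RT.LocalAtP.TangentBound
import Fermat.Agent.FlatLocal.LocalBound
import Fermat.Agent.TwoAdic.Selmer.Decomposition
import Fermat.Statements.S56

/-!
# S56 from the Greenberg–Wiles inequality
-/

set_option autoImplicit false

noncomputable section

namespace Fermat.Agent.ClassField.S56

open IsLocalRing Fermat.Agent.Deformation Fermat.Agent.RT
open Deformation (Mat)

variable {𝒪 : Type} [CommRing 𝒪] [IsDomain 𝒪] [IsDiscreteValuationRing 𝒪]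
  [IsAdicComplete (maximalIdeal 𝒪) 𝒪] [Finite (ResidueField 𝒪)]

/-- The two local bounds at `p` hold; S56 follows from the Greenberg–Wiles inequality. -/
theorem exists_taylorWilesPrimes_of_adjointGW (p : ℕ) [Fact p.Prime] (hp2 : p ≠ 2)
    (hp𝒪 : (p : 𝒪) ∈ maximalIdeal 𝒪) (ρbar : ResidualGaloisRep (ResidueField 𝒪))
    (habs : ρbar.IsAbsolutelyIrreducible)
    (hdet : (GaloisRepAdic.ofResidualGaloisRep ρbar).DetIsCyclotomic p)
    (hsplit : ∀ σ : Γ, ∃ α β : ResidueField 𝒪, LinearMap.charpoly (ρbar.ρ σ) =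
      (Polynomial.X - Polynomial.C α) * (Polynomial.X - Polynomial.C β))
    (hTW : ∀ (K : Type) [Field K] [Algebra (ResidueField 𝒪) K] (G : Subgroup Γ), G.index = 2 →
      ∀ V : Submodule K (ρbar.baseChange K).V,
        (∀ σ ∈ G, ∀ x ∈ V, (ρbar.baseChange K).ρ σ x ∈ V) → V = ⊥ ∨ V = ⊤)
    (S Smin : Finset ℕ) (hSmin : Smin ⊆ S) (hS : ∀ q ∈ S, q.Prime)
    (hmin : ∀ q : ℕ, q.Prime → q ≠ p → (q ∈ Smin ↔ ¬ ρbar.IsUnramifiedAt q))
    (bbar : Module.Basis (Fin 2) (ResidueField 𝒪) ρbar.V)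
    (hGW : AdjointGW p (matOf ρbar.ρ bbar) Smin (padicPlace p)) :
    (∃ r : ℕ, ∀ n : ℕ, ∃ qv : Fin r → ℕ, Function.Injective qv ∧
      (∀ i, (qv i).Prime ∧ qv i ∉ S ∧ p ^ (n + 1) ∣ qv i - 1) ∧
      (∀ i, ∀ P : ValuationSubring (AlgebraicClosure ℚ), P.LiesOverPrime (qv i) →
        ∀ φ : Γ, P.IsFrobeniusAt φ (qv i) →
          ∃ α β : ResidueField 𝒪, α ≠ β ∧ LinearMap.charpoly (ρbar.ρ φ) =
            (Polynomial.X - Polynomial.C α) * (Polynomial.X - Polynomial.C β)) ∧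
      ∀ DQ : GaloisRep.DeformationRingData 𝒪 ρbar (fun _A _ _ _ ρ =>
          GaloisRep.strictOrdinaryCondition 𝒪 p (Smin ∪ Finset.univ.image qv) ρ ∧
            ∀ q ∈ Smin, q.Prime → q ≠ p → ρ.IsUnipotentOnInertiaAt q),
        ∃ γ : MvPowerSeries (Fin r) 𝒪 →ₐ[𝒪] DQ.R, Function.Surjective γ) ∧
    (∃ r : ℕ, ∀ n : ℕ, ∃ qv : Fin r → ℕ, Function.Injective qv ∧
      (∀ i, (qv i).Prime ∧ qv i ∉ S ∧ p ^ (n + 1) ∣ qv i - 1) ∧
      (∀ i, ∀ P : ValuationSubring (AlgebraicClosure ℚ), P.LiesOverPrime (qv i) →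
        ∀ φ : Γ, P.IsFrobeniusAt φ (qv i) →
          ∃ α β : ResidueField 𝒪, α ≠ β ∧ LinearMap.charpoly (ρbar.ρ φ) =
            (Polynomial.X - Polynomial.C α) * (Polynomial.X - Polynomial.C β)) ∧
      ∀ DQ : GaloisRep.DeformationRingData 𝒪 ρbar (fun _A _ _ _ ρ =>
          GaloisRep.flatCondition 𝒪 p (Smin ∪ Finset.univ.image qv) ρ ∧
            ∀ q ∈ Smin, q.Prime → q ≠ p → ρ.IsUnipotentOnInertiaAt q),
        ∃ γ : MvPowerSeries (Fin r) 𝒪 →ₐ[𝒪] DQ.R, Function.Surjective γ) := by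
  have hp : p.Prime := Fact.out
  have hP₀ : (padicPlace p).LiesOverPrime p := TwoAdic.Selmer.liesOverPrime_padicPlace (q := ⟨p, hp⟩)
  have hsplit' : ∀ g : Γ, ∃ c : ResidueField 𝒪,
      (matOf ρbar.ρ bbar g - c • (1 : Mat (ResidueField 𝒪))).det = 0 := by
    intro g
    obtain ⟨α, β, h⟩ := hsplit g
    refine ⟨α, ?_⟩
    have hc := LinearMap.charpoly_toMatrix (ρbar.ρ g) bbar
    rw [h] at hc
    have he := congrArg (Polynomial.eval α) hc
    rw [Matrix.eval_charpoly] at he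
    simp only [Polynomial.eval_mul, Polynomial.eval_sub, Polynomial.eval_X, Polynomial.eval_C,
      sub_self, zero_mul] at he
    rw [matOf_apply, Matrix.smul_one_eq_diagonal,
      show (Matrix.diagonal fun _ => α) = Matrix.scalar (Fin 2) α from rfl,
      ← neg_sub, Matrix.det_neg, he, mul_zero]
  exact exists_taylorWilesPrimes_of p hp2 hp𝒪 ρbar habs hdet hsplit hTW S Smin hSmin hS hmin bbar
    (padicPlace p) hGW
    (localBoundAtP_strictOrdinary hp hp2 hp𝒪 _ _ (fun Q ρ h => ⟨h.1.1, h.1.2.1⟩) _ hP₀)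
    (FlatLocal.localBoundAtP_flat hp2 hp𝒪 _ hsplit' _ fun Q ρ h => ⟨h.1.1, h.1.2.1⟩)

end Fermat.Agent.ClassField.S56
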