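import Fermat.Agent.RT.Global.EulerFromLocal
import Fermat.Agent.RT.Global.TameGeneration
import Fermat.Agent.RT.LocalQ.Rep
import Fermat.Agent.RT.Global.SelBound

/-!
# Local tangent classes at a residually ramified place with unipotent inertia

At a place over `q ≠ p` where the residual representation is ramified and the deformations are
unipotent on inertia, the local tangent classes form a space of dimension at most the local
invariants of the trace-zero adjoint.
-/

set_option autoImplicit false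

noncomputable section

namespace Fermat.Agent.ClassField.S56

open IsLocalRing Fermat.Agent.Deformation Fermat.Agent.RT
open Deformation (Mat)

local notation "ℚ̄" => AlgebraicClosure ℚ

variable {𝒪 : Type} [CommRing 𝒪] [IsLocalRing 𝒪] {rbar : Γ →* Mat (ResidueField 𝒪)}

/-- The condition imposing nothing. -/
def noCond : ∀ ⦃A : Type⦄ [CommRing A] [IsLocalRing A] [Algebra 𝒪 A], GaloisRepAdic A → Prop :=
  fun _ _ _ _ _ => True

/-- The trace-zero adjoint cocycles form a subspace. -/
def cocycleSpace (rbar : Γ →* Mat (ResidueField 𝒪)) :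
    Submodule (ResidueField 𝒪) (Γ → Mat (ResidueField 𝒪)) where
  carrier := {Z | (∀ g, (Z g).trace = 0) ∧
    (∀ g h, Z (g * h) = Z g + rbar g * Z h * rbar g⁻¹) ∧
    ∃ L : IntermediateField ℚ ℚ̄, FiniteDimensional ℚ L ∧
      ∀ g t : Γ, (∀ x ∈ L, t x = x) → Z (g * t) = Z g}
  zero_mem' := ⟨fun g => by simp, fun g h => by simp, ⊥, inferInstance, fun _ _ _ => rfl⟩
  add_mem' := by
    rintro a b ⟨a1, a2, L, hL, a3⟩ ⟨b1, b2, L', hL', b3⟩
    refine ⟨fun g => ?_, fun g h => ?_, L ⊔ L', inferInstance, fun g t ht => ?_⟩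
    · simp [a1, b1]
    · simp only [Pi.add_apply, a2, b2, mul_add, add_mul]
      abel
    · simp only [Pi.add_apply, a3 g t fun x hx => ht x ((le_sup_left : L ≤ L ⊔ L') hx),
        b3 g t fun x hx => ht x ((le_sup_right : L' ≤ L ⊔ L') hx)]
  smul_mem' := by
    rintro c a ⟨a1, a2, L, hL, a3⟩
    refine ⟨fun g => ?_, fun g h => ?_, L, hL, fun g t ht => ?_⟩
    · simp [a1]
    · simp [a2, smul_add]
    · simp [a3 g t ht]

theorem tangentSet_subset_cocycleSpace
    {𝒟 : ∀ ⦃A : Type⦄ [CommRing A] [IsLocalRing A] [Algebra 𝒪 A], GaloisRepAdic A → Prop} :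
    tangentSet 𝒟 rbar ⊆ (cocycleSpace rbar : Set (Γ → Mat (ResidueField 𝒪))) := by
  intro Z hZ
  obtain ⟨L, hL, h⟩ := exists_finiteLevel_of_mem_tangentSet hZ
  exact ⟨hZ.1, hZ.2.1, L, hL, fun g t ht => (h g t ht).2⟩

/-- The dual number lift of a cocycle is multiplicative. -/
theorem liftEntries_mul {Z : Γ → Mat (ResidueField 𝒪)}
    (hZ : ∀ g h, Z (g * h) = Z g + rbar g * Z h * rbar g⁻¹) (g h : Γ) :
    liftEntries rbar Z (g * h) = liftEntries rbar Z g * liftEntries rbar Z h := by
  have e : Z (g * h) * rbar (g * h) = Z g * rbar g * rbar h + rbar g * (Z h * rbar h) := by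
    have hc : rbar g⁻¹ * rbar g = 1 := by rw [← map_mul, inv_mul_cancel, map_one]
    rw [hZ, map_mul, add_mul, mul_assoc (rbar g * Z h) (rbar g⁻¹), ← mul_assoc (rbar g⁻¹) (rbar g),
      hc, one_mul, mul_assoc (rbar g), ← mul_assoc (Z g)]
  ext i j
  · fin_cases i <;> fin_cases j <;>
      simp [liftEntries, Matrix.mul_apply, Fin.sum_univ_two, map_mul]
  · have e' := congrFun (congrFun e i) j
    simp [Matrix.mul_apply, Fin.sum_univ_two] at e'
    fin_cases i <;> fin_cases j <;>
      simp [liftEntries, Matrix.mul_apply, Fin.sum_univ_two, map_mul] at e' ⊢ <;>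
      linear_combination e'

theorem mem_tangentSet_noCond (hfin : GaloisFactorsThroughFiniteLevel rbar)
    {Z : Γ → Mat (ResidueField 𝒪)} (hZ : Z ∈ cocycleSpace rbar) :
    Z ∈ tangentSet (noCond (𝒪 := 𝒪)) rbar := by
  obtain ⟨h1, h2, L, hL, h3⟩ := hZ
  have hZ1 : Z 1 = 0 := by simpa using h2 1 1
  have hone : liftEntries rbar Z 1 = 1 := Matrix.ext fun i j => by
    by_cases hij : i = j <;> simp [liftEntries, hij, hZ1, Matrix.one_apply]
  let r : Γ →* Mat (DualNumber (ResidueField 𝒪)) :=
    { toFun := liftEntries rbar Z, map_one' := hone, map_mul' := liftEntries_mul h2 }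
  refine ⟨h1, h2, r, IsCont.of_factors r ?_, fun g => rfl, trivial⟩
  obtain ⟨L', hL', h4⟩ := hfin
  refine ⟨L ⊔ L', inferInstance, fun σ hσ => ?_⟩
  have hr : rbar σ = 1 := h4 σ fun x hx => hσ x ((le_sup_right : L' ≤ L ⊔ L') hx)
  have hz : Z σ = 0 := by
    have := h3 1 σ fun x hx => hσ x ((le_sup_left : L ≤ L ⊔ L') hx)
    rwa [one_mul, hZ1] at this
  show liftEntries rbar Z σ = 1
  exact Matrix.ext fun i j => by
    by_cases hij : i = j <;> simp [liftEntries, hij, hz, hr, Matrix.one_apply]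

/-- Solving `X N - N X = M` for a non-zero square-zero `N`. -/
theorem exists_commutator_eq {k : Type} [Field k] (h2 : (2 : k) ≠ 0) {N M : Mat k} (hN : N ≠ 0)
    (hNN : N * N = 0) (hNt : N.trace = 0) (hMt : M.trace = 0) (hNM : N * M + M * N = 0) :
    ∃ X : Mat k, X * N - N * X = M := by
  have n11 : N 1 1 = -N 0 0 := by rw [Matrix.trace_fin_two] at hNt; linear_combination hNt
  have m11 : M 1 1 = -M 0 0 := by rw [Matrix.trace_fin_two] at hMt; linear_combination hMt
  have h00 := congrFun (congrFun hNN 0) 0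
  have hm := congrFun (congrFun hNM 0) 0
  simp [Matrix.mul_apply, Fin.sum_univ_two] at h00 hm
  by_cases hb : N 0 1 = 0
  · have ha : N 0 0 = 0 := by
      rw [hb, zero_mul, add_zero] at h00
      exact mul_self_eq_zero.mp h00
    have hc : N 1 0 ≠ 0 := fun hc => hN (Matrix.ext fun i j => by
      fin_cases i <;> fin_cases j <;> simp [ha, hb, hc, n11])
    have hm01 : M 0 1 = 0 := (mul_eq_zero_iff_left hc).mp
      (show N 1 0 * M 0 1 = 0 by rw [ha, hb] at hm; linear_combination hm)
    refine ⟨!![-(M 1 0 / (2 * N 1 0)), M 0 0 / N 1 0; 0, M 1 0 / (2 * N 1 0)], ?_⟩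
    ext i j
    fin_cases i <;> fin_cases j <;>
      simp [Matrix.mul_apply, Matrix.vecMul, dotProduct, Fin.sum_univ_two, ha, hb, n11, m11, hm01] <;> field_simp <;> ring
  · refine ⟨!![M 0 1 / (2 * N 0 1), 0; -(M 0 0 / N 0 1), -(M 0 1 / (2 * N 0 1))], ?_⟩
    ext i j
    fin_cases i <;> fin_cases j <;>
      simp [Matrix.mul_apply, Matrix.vecMul, dotProduct, Fin.sum_univ_two, n11, m11] <;> field_simp
    all_goals first | linear_combination (-2 : k) * hm | ring1

variable {𝒟 : ∀ ⦃A : Type⦄ [CommRing A] [IsLocalRing A] [Algebra 𝒪 A], GaloisRepAdic A → Prop}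
  {p q : ℕ} [Fact p.Prime]

/-- The local tangent classes at a residually ramified place with unipotent inertia. -/
theorem finrank_localClasses_unipotent_le (h2 : (2 : ResidueField 𝒪) ≠ 0) (hq : q.Prime)
    (hpq : p ≠ q) (hp𝒪 : (p : 𝒪) ∈ maximalIdeal 𝒪)
    (hfin : GaloisFactorsThroughFiniteLevel rbar)
    (h𝒟 : ∀ ρ : GaloisRepAdic (DualNumber (ResidueField 𝒪)), 𝒟 ρ → ρ.IsUnipotentOnInertiaAt q)
    (T : TamePair p q) (hram : ∃ τ ∈ T.A.inertiaSubgroupIn ℚ, rbar τ ≠ 1) :
    FiniteDimensional (ResidueField 𝒪) (localClasses rbar (T.A.decompositionSubgroup ℚ)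
        (Submodule.span (ResidueField 𝒪) (tangentSet 𝒟 rbar))) ∧
      Module.finrank (ResidueField 𝒪) (localClasses rbar (T.A.decompositionSubgroup ℚ)
          (Submodule.span (ResidueField 𝒪) (tangentSet 𝒟 rbar))) ≤
        Module.finrank (ResidueField 𝒪) (commutantSpace rbar (T.A.decompositionSubgroup ℚ)) - 1 := by
  classical
  let k := ResidueField 𝒪
  set D := T.A.decompositionSubgroup ℚ with hD
  set W := Submodule.span k (tangentSet 𝒟 rbar) with hW
  rcases Set.eq_empty_or_nonempty (tangentSet 𝒟 rbar) with he | ⟨Z₁, hZ₁⟩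
  · have : localClasses rbar D W = ⊥ := by simp [hW, he, localClasses]
    rw [this, finrank_bot]
    exact ⟨inferInstance, Nat.zero_le _⟩
  have hdual : IsAdicComplete (maximalIdeal (DualNumber k)) (DualNumber k) :=
    RT.isAdicComplete_of_pow_eq_bot dualNumber_maximalIdeal_sq
  have hpk : (p : k) = 0 := by
    show (p : ResidueField 𝒪) = 0
    rw [← map_natCast (residue 𝒪), residue_eq_zero_iff]; exact hp𝒪
  haveI : CharP k p := (CharP.charP_iff_prime_eq_zero Fact.out).mpr hpk
  have hpA : (p : DualNumber k) ∈ maximalIdeal _ := by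
    rw [IsLocalRing.mem_maximalIdeal, mem_nonunits_iff, isUnit_dualNumber_iff, not_ne_iff,
      TrivSqZeroExt.fst_natCast, hpk]
  -- the unipotent matrices of a member
  have hsq : ∀ Z ∈ tangentSet 𝒟 rbar, ∀ τ ∈ T.A.inertiaSubgroupIn ℚ,
      (liftEntries rbar Z τ - 1) * (liftEntries rbar Z τ - 1) = 0 ∧
        (liftEntries rbar Z τ).trace = 2 := by
    intro Z hZ τ hτ
    obtain ⟨-, -, r, hr, hrZ, hDr⟩ := hZ
    have hc := h𝒟 _ hDr T.A T.hA τ hτ
    rw [← LinearMap.charpoly_toMatrix ((repOf r hr).ρ τ) (stdBasis r hr), ← matOf_apply,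
      DFunLike.congr_fun (matOf_repOf r hr) τ, hrZ] at hc
    refine ⟨?_, ?_⟩
    · have h := Matrix.aeval_self_charpoly (liftEntries rbar Z τ)
      rw [hc, map_pow, map_sub, Polynomial.aeval_X, map_one, sq] at h
      exact h
    · have h1 := congrArg (Polynomial.coeff · 1) hc
      rw [Matrix.charpoly_fin_two] at h1
      simp [sub_sq, Polynomial.coeff_X_pow, Polynomial.coeff_X, Polynomial.coeff_one,
        Polynomial.coeff_ofNat_mul] at h1
      linear_combination h1
  -- residual consequences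
  have hres : ∀ τ ∈ T.A.inertiaSubgroupIn ℚ,
      (rbar τ - 1) * (rbar τ - 1) = 0 ∧ (rbar τ).trace = 2 := by
    intro τ hτ
    obtain ⟨h1, h3⟩ := hsq Z₁ hZ₁ τ hτ
    have hf : (liftEntries rbar Z₁ τ).map (TrivSqZeroExt.fstHom k k k) = rbar τ :=
      Matrix.ext fun i j => by simp [liftEntries]
    have h1' := congrArg (TrivSqZeroExt.fstHom k k k).mapMatrix h1
    rw [map_mul, map_sub, map_one, map_zero, AlgHom.mapMatrix_apply, hf] at h1'
    refine ⟨h1', ?_⟩
    have h3' := congrArg (TrivSqZeroExt.fstHom k k k) h3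
    rw [map_ofNat] at h3'
    rw [← hf, Matrix.trace_fin_two] at *
    simpa [Matrix.map_apply] using h3'
  have htame : ∀ τ ∈ T.A.inertiaSubgroupIn ℚ, ∃ j : ℕ, rbar τ ^ p ^ j = 1 := by
    intro τ hτ
    refine ⟨1, ?_⟩
    rw [pow_one, ← sub_eq_zero, show rbar τ = 1 + (rbar τ - 1) by abel]
    have hn : ∀ n : ℕ, (1 + (rbar τ - 1)) ^ n = 1 + (n : k) • (rbar τ - 1) := by
      intro n
      induction n with
      | zero => simp
      | succ n ih =>
        rw [pow_succ, ih, add_mul, one_mul, smul_mul_assoc, mul_add, mul_one, (hres τ hτ).1,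
          add_zero, Nat.cast_succ, add_smul, one_smul]
        abel
    rw [hn, hpk, zero_smul, add_zero, sub_self]
  set S := rbar T.σ with hS
  have hSne : S ≠ 1 := by
    intro hS1
    obtain ⟨τ, hτ, hne⟩ := hram
    let r₀ : Γ →* Mat (DualNumber k) := mapRep (TrivSqZeroExt.inlHom k k) rbar
    have hr₀ : IsCont r₀ := IsCont.of_factors r₀ (by
      obtain ⟨L, hL, h⟩ := hfin
      exact ⟨L, hL, fun σ hσ => by simp [r₀, mapRep_apply, h σ hσ]⟩)
    have ht₀ : IsResTame p T.A r₀ := fun s hs => by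
      obtain ⟨j, hj⟩ := htame s hs
      refine ⟨j, ?_⟩
      rw [← map_pow, mapRep_apply, map_pow, hj]
      simp
    have h := T.eq_one_of_σ Fact.out hq hpq hpA hr₀ ht₀ (by simp [r₀, mapRep_apply, ← hS, hS1])
      T.hA hτ
    apply hne
    ext i j
    have := congrArg TrivSqZeroExt.fst (congrFun (congrFun h i) j)
    by_cases hij : i = j <;> simpa [r₀, mapRep_apply, Matrix.one_apply, hij] using this
  -- members can be normalised to vanish at `σ`
  have hnorm : ∀ Z ∈ tangentSet 𝒟 rbar, ∃ X, Z T.σ = adCoboundary rbar X T.σ := by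
    intro Z hZ
    obtain ⟨h1, h3⟩ := hsq Z hZ T.σ T.hσ
    have hsnd : (S - 1) * (Z T.σ * S) + Z T.σ * S * (S - 1) = 0 := by
      refine Matrix.ext fun i j => ?_
      have := congrArg TrivSqZeroExt.snd (congrFun (congrFun h1 i) j)
      fin_cases i <;> fin_cases j <;>
        simp [liftEntries, Matrix.mul_apply, Matrix.one_apply, Fin.sum_univ_two, ← hS] at this ⊢ <;>
        linear_combination this
    have htr : (Z T.σ * S).trace = 0 := by
      have := congrArg TrivSqZeroExt.snd h3
      rw [show (2 : DualNumber k) = ((2 : ℕ) : DualNumber k) from Nat.cast_ofNat.symm,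
        TrivSqZeroExt.snd_natCast] at this
      simp [Matrix.trace_fin_two, liftEntries, ← hS] at this
      rw [Matrix.trace_fin_two]
      simpa [Matrix.mul_apply, Fin.sum_univ_two] using this
    obtain ⟨hSS, hSt⟩ := hres T.σ T.hσ
    obtain ⟨X, hX⟩ := exists_commutator_eq h2 (N := S - 1) (sub_ne_zero.mpr hSne) hSS
      (by rw [Matrix.trace_sub, ← hS] at *; rw [hSt, Matrix.trace_one]; simp) htr hsnd
    refine ⟨X, ?_⟩
    have hinv : S * rbar T.σ⁻¹ = 1 := by rw [hS, ← map_mul, mul_inv_cancel, map_one]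
    show Z T.σ = X - S * X * rbar T.σ⁻¹
    have hX' : X * S - S * X = Z T.σ * S := by rw [← hX]; simp [mul_sub, sub_mul]
    calc Z T.σ = Z T.σ * S * rbar T.σ⁻¹ := by rw [mul_assoc, hinv, mul_one]
      _ = _ := by rw [← hX', sub_mul, mul_assoc X, hinv, mul_one]
  -- the subspace vanishing at `σ`
  set W₀ : Submodule k (Γ → Mat k) :=
    cocycleSpace rbar ⊓ LinearMap.ker (LinearMap.proj T.σ) with hW₀
  have hcob : ∀ X : Mat k, adCoboundary rbar X ∈ cocycleSpace rbar := by
    intro X
    refine ⟨fun g => ?_, fun g h => ?_, ?_⟩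
    · show (X - rbar g * X * rbar g⁻¹).trace = 0
      rw [Matrix.trace_sub, Matrix.trace_mul_comm, ← mul_assoc, ← map_mul, inv_mul_cancel, map_one,
        one_mul, sub_self]
    · show X - rbar (g * h) * X * rbar (g * h)⁻¹ =
        X - rbar g * X * rbar g⁻¹ + rbar g * (X - rbar h * X * rbar h⁻¹) * rbar g⁻¹
      rw [mul_inv_rev, map_mul, map_mul]
      noncomm_ring
    · obtain ⟨L, hL, h⟩ := hfin
      refine ⟨L, hL, fun g t ht => ?_⟩
      show X - rbar (g * t) * X * rbar (g * t)⁻¹ = X - rbar g * X * rbar g⁻¹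
      have h' : rbar t⁻¹ = 1 := h t⁻¹ fun x hx => by
        conv_lhs => rw [← ht x hx]
        exact t.symm_apply_apply x
      rw [mul_inv_rev, map_mul, map_mul, h t ht, h', mul_one, one_mul]
  have hle : localClasses rbar D W ≤ localClasses rbar D W₀ := by
    rw [localClasses, hW, Submodule.map_span, Submodule.map_span, Submodule.span_le]
    rintro _ ⟨_, ⟨Z, hZ, rfl⟩, rfl⟩
    obtain ⟨X, hX⟩ := hnorm Z hZ
    refine ⟨resSub D (Z - adCoboundary rbar X), ⟨_, ⟨sub_mem (tangentSet_subset_cocycleSpace hZ)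
      (hcob X), ?_⟩, rfl⟩, ?_⟩
    · simp [hX]
    · rw [map_sub, map_sub, sub_eq_self]
      exact (Submodule.Quotient.mk_eq_zero _).mpr ⟨X, rfl⟩
  -- matrices commuting with `S`
  set C : Submodule k (Mat k) :=
    { carrier := {X | X.trace = 0 ∧ S * X = X * S}
      zero_mem' := by simp
      add_mem' := fun {a b} ha hb => ⟨by simp [ha.1, hb.1], by rw [mul_add, add_mul, ha.2, hb.2]⟩
      smul_mem' := fun c a ha => ⟨by simp [ha.1], by rw [mul_smul_comm, smul_mul_assoc, ha.2]⟩ }
    with hC
  have hcomm_of : ∀ X : Mat k, S ^ q * X = X * S ^ q → S * X = X * S := by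
    intro X hX
    have hpow : S ^ q = 1 + (q : k) • (S - 1) := by
      have hn : ∀ n : ℕ, S ^ n = 1 + (n : k) • (S - 1) := by
        intro n
        induction n with
        | zero => simp
        | succ n ih =>
          calc S ^ (n + 1) = S ^ n * (1 + (S - 1)) := by rw [pow_succ, add_sub_cancel]
            _ = _ := by
              rw [ih, add_mul, one_mul, smul_mul_assoc, mul_add, mul_one, (hres T.σ T.hσ).1,
                add_zero, Nat.cast_succ, add_smul, one_smul]
              abel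
      exact hn q
    have hq0 : (q : k) ≠ 0 := fun h => hpq ((Nat.prime_dvd_prime_iff_eq Fact.out hq).1
      ((CharP.cast_eq_zero_iff k p q).1 h))
    rw [hpow, add_mul, mul_add, one_mul, mul_one, smul_mul_assoc, mul_smul_comm,
      add_right_inj] at hX
    have := smul_right_injective (Mat k) hq0 hX
    rw [sub_mul, mul_sub, one_mul, mul_one] at this
    exact sub_left_injective this
  have hrelS : rbar T.F * S = S ^ q * rbar T.F ∧
      ∀ Z ∈ W₀, Z T.F ∈ C := by
    have hrel : ∀ Z ∈ cocycleSpace rbar, liftEntries rbar Z T.F * liftEntries rbar Z T.σ =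
        liftEntries rbar Z T.σ ^ q * liftEntries rbar Z T.F := by
      intro Z hZ
      obtain ⟨-, -, r, hr, hrZ, -⟩ := mem_tangentSet_noCond hfin hZ
      have ht : IsResTame p T.A r := fun τ hτ => by
        obtain ⟨j, hj⟩ := htame τ hτ
        refine ⟨j, ?_⟩
        rw [← map_pow] at hj ⊢
        refine Matrix.ext fun a c => ?_
        have hfst : (r (τ ^ p ^ j) a c).fst = (1 : Mat k) a c := by
          rw [hrZ, ← hj]; simp [liftEntries]
        have hres' : ∀ z : DualNumber k, residue (DualNumber k) z =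
            residue _ (TrivSqZeroExt.inl z.fst) := fun z => by
          rw [← sub_eq_zero, ← map_sub, residue_eq_zero_iff, IsLocalRing.mem_maximalIdeal,
            mem_nonunits_iff, isUnit_dualNumber_iff]
          simp
        rw [Matrix.map_apply, hres', hfst, Matrix.one_apply, Matrix.one_apply]
        split <;> simp
      have h := T.adic_relation Fact.out hq hpq hpA hr ht
      simpa only [hrZ] using h
    have hfstrel : rbar T.F * S = S ^ q * rbar T.F := by
      have h := congrArg (TrivSqZeroExt.fstHom k k k).mapMatrix (hrel 0 (zero_mem _))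
      have hf : ∀ g, (TrivSqZeroExt.fstHom k k k).mapMatrix (liftEntries rbar 0 g) = rbar g :=
        fun g => Matrix.ext fun i j => by simp [liftEntries]
      rwa [map_mul, map_mul, map_pow, hf, hf] at h
    refine ⟨hfstrel, ?_⟩
    rintro Z ⟨hZ, hZσ⟩
    have hZσ' : Z T.σ = 0 := hZσ
    refine ⟨hZ.1 _, hcomm_of _ ?_⟩
    have hσ' : liftEntries rbar Z T.σ = S.map (TrivSqZeroExt.inlHom k k) :=
      Matrix.ext fun i j => by simp [liftEntries, hZσ', ← hS]
    have hinl : ∀ x : k, TrivSqZeroExt.inlHom k k x = TrivSqZeroExt.inl x := fun _ => rfl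
    have h := hrel Z hZ
    rw [hσ', ← RingHom.mapMatrix_apply, ← map_pow, RingHom.mapMatrix_apply] at h
    have e : Z T.F * rbar T.F * S = S ^ q * (Z T.F * rbar T.F) := Matrix.ext fun i j => by
      have := congrArg TrivSqZeroExt.snd (congrFun (congrFun h i) j)
      fin_cases i <;> fin_cases j <;>
        simp [liftEntries, Matrix.mul_apply, Fin.sum_univ_two, hinl] at this ⊢ <;>
        linear_combination this
    rw [mul_assoc (Z T.F), hfstrel] at e
    have hinv : rbar T.F * rbar T.F⁻¹ = 1 := by rw [← map_mul, mul_inv_cancel, map_one]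
    have e' := congrArg (· * rbar T.F⁻¹) e
    simp only [mul_assoc, hinv, mul_one] at e'
    exact e'.symm
  obtain ⟨hrelF, hmemC⟩ := hrelS
  -- the operator on `C`
  have hψ : ∀ X ∈ C, adCoboundary rbar X T.F ∈ C := by
    rintro X ⟨hXt, hXc⟩
    refine ⟨(hcob X).1 _, hcomm_of _ ?_⟩
    show S ^ q * (X - rbar T.F * X * rbar T.F⁻¹) = (X - rbar T.F * X * rbar T.F⁻¹) * S ^ q
    have hFinv : rbar T.F⁻¹ * S ^ q = S * rbar T.F⁻¹ := by
      have h1 : rbar T.F⁻¹ * rbar T.F = 1 := by rw [← map_mul, inv_mul_cancel, map_one]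
      have h2 : rbar T.F * rbar T.F⁻¹ = 1 := by rw [← map_mul, mul_inv_cancel, map_one]
      calc rbar T.F⁻¹ * S ^ q = rbar T.F⁻¹ * (S ^ q * rbar T.F) * rbar T.F⁻¹ := by
            rw [mul_assoc, mul_assoc, h2, mul_one]
        _ = _ := by rw [← hrelF, ← mul_assoc (rbar T.F⁻¹), h1, one_mul]
    have hXq : S ^ q * X = X * S ^ q := ((show Commute S X from hXc).pow_left q).eq
    rw [mul_sub, sub_mul, hXq]
    congr 1
    calc S ^ q * (rbar T.F * X * rbar T.F⁻¹) = rbar T.F * (S * X) * rbar T.F⁻¹ := by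
          rw [← mul_assoc, ← mul_assoc, ← hrelF, mul_assoc (rbar T.F) S]
      _ = rbar T.F * X * (S * rbar T.F⁻¹) := by rw [hXc]; simp only [mul_assoc]
      _ = _ := by rw [← hFinv]; simp only [mul_assoc]
  let ψ : C →ₗ[k] C :=
    (((LinearMap.proj T.F).comp (adCoboundary rbar)).comp C.subtype).codRestrict C
      fun X => hψ X.1 X.2
  have hcob_zero : ∀ {X : Mat k}, adCoboundary rbar X T.σ = 0 → adCoboundary rbar X T.F = 0 →
      ∀ d ∈ D, adCoboundary rbar X d = 0 := by
    intro X hσ hF d hd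
    have h := tangentSet_eq_adCoboundary_of_tamePair hq hpq hp𝒪 T hfin htame
      (mem_tangentSet_noCond hfin (zero_mem (cocycleSpace rbar))) X (by simp [hσ]) (by simp [hF]) hd
    simpa using h.symm
  have hkerψ : Module.finrank k (LinearMap.ker ψ) ≤
      Module.finrank k (commutantSpace rbar D) - 1 := by
    rw [finrank_commutantSpace_eq h2, Nat.add_sub_cancel]
    refine LinearMap.finrank_le_finrank_of_injective
      (f := LinearMap.codRestrict (commutantSpace rbar D ⊓ traceZero k)
        (C.subtype.comp (LinearMap.ker ψ).subtype) fun X => ⟨fun d hd => ?_, X.1.2.1⟩) ?_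
    · refine (adCoboundary_apply_eq_zero_iff rbar _ d).mp (hcob_zero ?_ ?_ d hd)
      · exact (adCoboundary_apply_eq_zero_iff rbar _ _).mpr X.1.2.2
      · exact congrArg Subtype.val (LinearMap.mem_ker.mp X.2)
    · intro X Y h
      have h2 : ((X : C) : Mat k) = ((Y : C) : Mat k) :=
        congrArg (fun z : ↥(commutantSpace rbar D ⊓ traceZero k) => (z : Mat k)) h
      exact Subtype.ext (Subtype.ext h2)
  -- classes are read off at `F`
  let R := LinearMap.range ((resSub D).comp (adCoboundary rbar))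
  let cls : W₀ →ₗ[k] (D → Mat k) ⧸ R := (R.mkQ.comp (resSub D)).comp W₀.subtype
  let evF : W₀ →ₗ[k] C ⧸ LinearMap.range ψ :=
    (LinearMap.range ψ).mkQ.comp
      (((LinearMap.proj T.F).comp W₀.subtype).codRestrict C fun Z => hmemC Z.1 Z.2)
  have hker : LinearMap.ker evF ≤ LinearMap.ker cls := by
    intro Z hZ
    obtain ⟨X, hX⟩ := (Submodule.Quotient.mk_eq_zero _).mp (LinearMap.mem_ker.mp hZ)
    have hXF : adCoboundary rbar X.1 T.F = Z.1 T.F := congrArg Subtype.val hX
    have hXσ : adCoboundary rbar X.1 T.σ = 0 :=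
      (adCoboundary_apply_eq_zero_iff rbar _ _).mpr X.2.2
    rw [LinearMap.mem_ker]
    refine (Submodule.Quotient.mk_eq_zero R).mpr ⟨X.1, funext fun d => ?_⟩
    exact (tangentSet_eq_adCoboundary_of_tamePair hq hpq hp𝒪 T hfin htame
      (mem_tangentSet_noCond hfin Z.2.1) X.1 (by rw [hXσ]; exact Z.2.2) hXF.symm d.2).symm
  have hdim0 : Module.finrank k (C ⧸ LinearMap.range ψ) = Module.finrank k (LinearMap.ker ψ) := by
    have h1 := Submodule.finrank_quotient_add_finrank (LinearMap.range ψ)
    have h2' := LinearMap.finrank_range_add_finrank_ker ψ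
    omega
  have heq : localClasses rbar D W₀ = LinearMap.range cls := by
    show (W₀.map (resSub D)).map R.mkQ = _
    rw [← Submodule.map_comp, LinearMap.range_comp, Submodule.range_subtype]
  let g : LinearMap.range evF →ₗ[k] (D → Mat k) ⧸ R :=
    ((LinearMap.ker evF).liftQ cls hker).comp evF.quotKerEquivRange.symm.toLinearMap
  have hrange : LinearMap.range cls ≤ LinearMap.range g := by
    rintro _ ⟨Z, rfl⟩
    refine ⟨⟨evF Z, Z, rfl⟩, ?_⟩
    have e : evF.quotKerEquivRange.symm ⟨evF Z, Z, rfl⟩ = Submodule.Quotient.mk Z :=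
      evF.quotKerEquivRange.symm_apply_eq.mpr (Subtype.ext rfl)
    show (LinearMap.ker evF).liftQ cls hker (evF.quotKerEquivRange.symm ⟨evF Z, Z, rfl⟩) = cls Z
    rw [e]; rfl
  have hle' : localClasses rbar D W ≤ LinearMap.range g := (hle.trans heq.le).trans hrange
  have hfd : FiniteDimensional k (LinearMap.range g) := inferInstance
  refine ⟨Submodule.finiteDimensional_of_le hle', (Submodule.finrank_mono hle').trans ?_⟩
  refine (LinearMap.finrank_range_le g).trans ((Submodule.finrank_le _).trans ?_)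
  exact hdim0.trans_le hkerψ

end Fermat.Agent.ClassField.S56
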